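import Mathlib.Analysis.InnerProductSpace.PiL2
import Mathlib.Data.Sym.Card
import Mathlib.LinearAlgebra.Dimension.Constructions
import Mathlib.Tactic

/-!
# Gerzon's bound and Blokhuis's bound

The squares of equiangular unit vectors are independent quadratic forms; the annihilating quartics
of a two-distance set are independent together with the affine functions (Blokhuis).
-/

set_option autoImplicit false

noncomputable section

open Finset
open scoped RealInnerProductSpace

namespace FA.EquiangularLines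

variable {d : ℕ} {ι : Type*} [Fintype ι]

theorem inner_eq_sum (x y : EuclideanSpace ℝ (Fin d)) : ⟪x, y⟫ = ∑ k, x k * y k := by
  rw [PiLp.inner_apply]
  exact sum_congr rfl fun k _ => by simp [mul_comm]

/-- A quadratic monomial. -/
def quad (x : EuclideanSpace ℝ (Fin d)) : Sym2 (Fin d) → ℝ :=
  Sym2.lift ⟨fun k l => x k * x l, fun _ _ => mul_comm _ _⟩

/-- **Gerzon's bound.** -/
theorem gerzon (x : ι → EuclideanSpace ℝ (Fin d)) {α : ℝ} (hα : α ^ 2 < 1)
    (h1 : ∀ i, ‖x i‖ = 1) (h2 : ∀ i j, i ≠ j → |⟪x i, x j⟫| = α) :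
    Fintype.card ι ≤ (d + 1).choose 2 := by
  classical
  have hind : LinearIndependent ℝ fun i => quad (x i) := by
    rw [Fintype.linearIndependent_iff]
    intro c hc i₀
    have hq : ∀ k l, ∑ i, c i * (x i k * x i l) = 0 := fun k l => by
      simpa [quad] using congrFun hc s(k, l)
    have e : ∀ i j, ⟪x i, x j⟫ ^ 2 = (1 - α ^ 2) * (if i = j then 1 else 0) + α ^ 2 := by
      intro i j
      split_ifs with h
      · subst h
        rw [real_inner_self_eq_norm_sq, h1]
        ring
      · rw [← sq_abs, h2 i j h]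
        ring
    have h0 : ∑ i, ∑ j, c i * c j * ⟪x i, x j⟫ ^ 2 = 0 := by
      have hsq : ∀ i j, c i * c j * ⟪x i, x j⟫ ^ 2 =
          ∑ k, ∑ l, c j * (x j k * x j l) * (c i * (x i k * x i l)) := fun i j => by
        rw [inner_eq_sum, pow_two, sum_mul_sum, mul_sum]
        simp only [mul_sum]
        exact sum_congr rfl fun k _ => sum_congr rfl fun l _ => by ring
      simp only [hsq]
      rw [sum_comm]
      refine (sum_congr rfl fun j _ => ?_).trans sum_const_zero
      rw [sum_comm]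
      refine (sum_congr rfl fun k _ => ?_).trans sum_const_zero
      rw [sum_comm]
      refine (sum_congr rfl fun l _ => ?_).trans sum_const_zero
      rw [← mul_sum, hq, mul_zero]
    have h3 : (1 - α ^ 2) * ∑ i, c i ^ 2 + α ^ 2 * (∑ i, c i) ^ 2 = 0 := by
      rw [← h0, pow_two (∑ i, c i), sum_mul_sum, mul_sum, mul_sum, ← sum_add_distrib]
      refine sum_congr rfl fun i _ => ?_
      simp only [e, mul_add, mul_ite, mul_one, mul_zero, sum_add_distrib, sum_ite_eq, mem_univ,
        if_true, mul_sum]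
      exact congrArg₂ _ (by ring) (sum_congr rfl fun j _ => by ring)
    have h4 : ∑ i, c i ^ 2 = 0 := by
      nlinarith [sum_nonneg fun i (_ : i ∈ univ) => sq_nonneg (c i), sq_nonneg (∑ i, c i),
        mul_nonneg (sq_nonneg α) (sq_nonneg (∑ i, c i))]
    exact (pow_eq_zero_iff two_ne_zero).1
      ((sum_eq_zero_iff_of_nonneg fun i _ => sq_nonneg (c i)).1 h4 i₀ (mem_univ i₀))
  simpa [Sym2.card] using hind.fintype_card_le_finrank

/-- The quartic of a point. -/
def quartic (a b : ℝ) (y x : EuclideanSpace ℝ (Fin d)) : ℝ :=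
  (‖x - y‖ ^ 2 - a) * (‖x - y‖ ^ 2 - b)

/-- The spanning functions. -/
def basisFun : (Unit ⊕ Fin d) ⊕ (Sym2 (Fin d) ⊕ (Fin d ⊕ Unit)) →
    EuclideanSpace ℝ (Fin d) → ℝ
  | .inl (.inl _) => fun x => ⟪x, x⟫ ^ 2
  | .inl (.inr k) => fun x => ⟪x, x⟫ * x k
  | .inr (.inl s) => fun x => quad x s
  | .inr (.inr (.inl k)) => fun x => x k
  | .inr (.inr (.inr _)) => fun _ => 1

theorem quartic_mem_span (a b : ℝ) (y : EuclideanSpace ℝ (Fin d)) :
    quartic a b y ∈ Submodule.span ℝ (Set.range (basisFun (d := d))) := by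
  have mem : ∀ s, basisFun (d := d) s ∈ Submodule.span ℝ (Set.range (basisFun (d := d))) :=
    fun s => Submodule.subset_span ⟨s, rfl⟩
  have e : quartic a b y =
      basisFun (.inl (.inl ())) - (∑ k, (4 * y k) • basisFun (.inl (.inr k))) +
      (∑ k, ∑ l, (4 * (y k * y l)) • basisFun (.inr (.inl s(k, l)))) +
      (2 * ⟪y, y⟫ - a - b) • (∑ k, basisFun (.inr (.inl s(k, k)))) -
      (∑ k, (2 * (2 * ⟪y, y⟫ - a - b) * y k) • basisFun (.inr (.inr (.inl k)))) +
      ((⟪y, y⟫ - a) * (⟪y, y⟫ - b)) • basisFun (.inr (.inr (.inr ()))) := by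
    funext x
    simp only [Pi.add_apply, Pi.sub_apply, Finset.sum_apply, Pi.smul_apply, smul_eq_mul, basisFun,
      quad, Sym2.lift_mk, quartic, norm_sub_sq_real]
    simp only [← real_inner_self_eq_norm_sq]
    have s1 : ∑ k, 4 * y k * (⟪x, x⟫ * x k) = 4 * ⟪x, x⟫ * ⟪x, y⟫ := by
      rw [inner_eq_sum x y, mul_sum]
      exact sum_congr rfl fun k _ => by ring
    have s2 : ∑ k, ∑ l, 4 * (y k * y l) * (x k * x l) = 4 * ⟪x, y⟫ ^ 2 := by
      rw [inner_eq_sum x y, pow_two, sum_mul_sum, mul_sum]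
      simp only [mul_sum]
      exact sum_congr rfl fun k _ => sum_congr rfl fun l _ => by ring
    have s3 : ∑ k, x k * x k = ⟪x, x⟫ := (inner_eq_sum x x).symm
    have s4 : ∑ k, 2 * (2 * ⟪y, y⟫ - a - b) * y k * x k =
        2 * (2 * ⟪y, y⟫ - a - b) * ⟪x, y⟫ := by
      rw [inner_eq_sum x y, mul_sum]
      exact sum_congr rfl fun k _ => by ring
    rw [s1, s2, s3, s4]
    ring
  rw [e]
  refine Submodule.add_mem _ (Submodule.sub_mem _ (Submodule.add_mem _ (Submodule.add_mem _
    (Submodule.sub_mem _ (mem _) ?_) ?_) (Submodule.smul_mem _ _ ?_)) ?_)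
    (Submodule.smul_mem _ _ (mem _))
  · exact Submodule.sum_mem _ fun k _ => Submodule.smul_mem _ _ (mem _)
  · exact Submodule.sum_mem _ fun k _ => Submodule.sum_mem _ fun l _ =>
      Submodule.smul_mem _ _ (mem _)
  · exact Submodule.sum_mem _ fun k _ => mem _
  · exact Submodule.sum_mem _ fun k _ => Submodule.smul_mem _ _ (mem _)

/-- **Blokhuis's bound.** -/
theorem blokhuis (x : ι → EuclideanSpace ℝ (Fin d)) {a b : ℝ} (ha : a ≠ 0) (hb : b ≠ 0)
    (hdist : ∀ i j, i ≠ j → ‖x i - x j‖ ^ 2 = a ∨ ‖x i - x j‖ ^ 2 = b) :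
    Fintype.card ι ≤ (d + 2).choose 2 := by
  classical
  rcases Nat.eq_zero_or_pos d with rfl | hd
  · rw [Nat.choose_self, Fintype.card_le_one_iff]
    intro i j
    by_contra hne
    have h : ‖x i - x j‖ ^ 2 = 0 := by rw [Subsingleton.elim (x i) (x j)]; simp
    rcases hdist i j hne with h' | h' <;> rw [h] at h'
    exacts [ha h'.symm, hb h'.symm]
  let F : ι ⊕ (Fin d ⊕ Unit) → EuclideanSpace ℝ (Fin d) → ℝ :=
    Sum.elim (fun i => quartic a b (x i)) fun s => basisFun (.inr (.inr s))
  have hspan : ∀ s, F s ∈ Submodule.span ℝ (Set.range (basisFun (d := d))) := by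
    rintro (i | s)
    exacts [quartic_mem_span a b (x i), Submodule.subset_span ⟨_, rfl⟩]
  have hind : LinearIndependent ℝ F := by
    rw [Fintype.linearIndependent_iff]
    intro c hc
    let u : EuclideanSpace ℝ (Fin d) := WithLp.toLp 2 fun k => c (.inr (.inl k))
    set e₀ := c (.inr (.inr ()))
    have hv : ∀ y, ∑ i, c (.inl i) * quartic a b (x i) y + (⟪u, y⟫ + e₀) = 0 := by
      intro y
      have h := congrFun hc y
      simpa [Fintype.sum_sum_type, F, basisFun, inner_eq_sum, u, e₀] using h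
    have hline : ∀ (v : EuclideanSpace ℝ (Fin d)),
        24 * ⟪v, v⟫ ^ 2 * ∑ i, c (.inl i) = 0 ∧
          48 * ⟪v, v⟫ * ∑ i, c (.inl i) * ⟪v, x i⟫ = 0 := by
      intro v
      have eq : ∀ i (t : ℝ), quartic a b (x i) (t • v) =
          (t ^ 2 * ⟪v, v⟫ - 2 * t * ⟪v, x i⟫ + ⟪x i, x i⟫ - a) *
            (t ^ 2 * ⟪v, v⟫ - 2 * t * ⟪v, x i⟫ + ⟪x i, x i⟫ - b) := fun i t => by
        simp only [quartic, norm_sub_sq_real]
        simp only [← real_inner_self_eq_norm_sq, inner_smul_left, inner_smul_right, conj_trivial]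
        ring
      have g : ∀ t : ℝ, ∑ i, c (.inl i) *
          ((t ^ 2 * ⟪v, v⟫ - 2 * t * ⟪v, x i⟫ + ⟪x i, x i⟫ - a) *
            (t ^ 2 * ⟪v, v⟫ - 2 * t * ⟪v, x i⟫ + ⟪x i, x i⟫ - b)) + (t * ⟪u, v⟫ + e₀) = 0 :=
        fun t => by
          have h := hv (t • v)
          simp only [eq, inner_smul_right] at h
          exact h
      let G : ℝ → ι → ℝ := fun t i => c (.inl i) *
        ((t ^ 2 * ⟪v, v⟫ - 2 * t * ⟪v, x i⟫ + ⟪x i, x i⟫ - a) *
          (t ^ 2 * ⟪v, v⟫ - 2 * t * ⟪v, x i⟫ + ⟪x i, x i⟫ - b))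
      have gG : ∀ t : ℝ, ∑ i, G t i = -(t * ⟪u, v⟫ + e₀) := fun t =>
        eq_neg_of_add_eq_zero_left (g t)
      constructor
      · have h : ∑ i, (G 2 i + G (-2) i + 6 * G 0 i - 4 * (G 1 i + G (-1) i)) = 0 := by
          simp only [sum_sub_distrib, sum_add_distrib, ← mul_sum, gG]
          ring
        rw [mul_sum, ← h]
        exact sum_congr rfl fun i _ => by simp only [G]; ring
      · have h : ∑ i, (2 * (G 1 i - G (-1) i) - (G 2 i - G (-2) i)) = 0 := by
          simp only [sum_sub_distrib, ← mul_sum, gG]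
          ring
        rw [mul_sum, ← h]
        exact sum_congr rfl fun i _ => by simp only [G]; ring
    have hc0 : ∑ i, c (.inl i) = 0 := by
      have := (hline (EuclideanSpace.single ⟨0, hd⟩ (1 : ℝ))).1
      simpa [inner_eq_sum, PiLp.single_apply] using this
    have hc1 : ∀ v, ∑ i, c (.inl i) * ⟪v, x i⟫ = 0 := fun v => by
      rcases eq_or_ne v 0 with rfl | hv0
      · simp
      · have : ⟪v, v⟫ ≠ 0 := inner_self_ne_zero.2 hv0
        exact (mul_eq_zero.1 (hline v).2).resolve_left (mul_ne_zero (by norm_num) this)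
    have hdiag : ∀ j, ∑ i, c (.inl i) * quartic a b (x i) (x j) = a * b * c (.inl j) := fun j => by
      rw [sum_eq_single j]
      · simp [quartic]
        ring
      · intro i _ hne
        rcases hdist j i hne.symm with h | h <;> simp [quartic, h]
      · simp
    have hz : ∀ i, c (.inl i) = 0 := by
      have hs : ∑ j, c (.inl j) * (a * b * c (.inl j) + (⟪u, x j⟫ + e₀)) = 0 :=
        sum_eq_zero fun j _ => by rw [← hdiag, hv, mul_zero]
      simp only [mul_add, sum_add_distrib, hc1 u, ← sum_mul, hc0, zero_mul, add_zero] at hs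
      have hs' : a * b * ∑ j, c (.inl j) ^ 2 = 0 := by
        rw [← hs, mul_sum]
        exact sum_congr rfl fun j _ => by ring
      rw [mul_eq_zero, or_iff_right (mul_ne_zero ha hb)] at hs'
      exact fun i => (pow_eq_zero_iff two_ne_zero).1
        ((sum_eq_zero_iff_of_nonneg fun i _ => sq_nonneg _).1 hs' i (mem_univ i))
    have haff : ∀ y, ⟪u, y⟫ + e₀ = 0 := fun y => by
      simpa [hz] using hv y
    have he : e₀ = 0 := by simpa using haff 0
    rintro (i | k | ⟨⟩)
    · exact hz i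
    · have := haff (EuclideanSpace.single k 1)
      simpa [inner_eq_sum, he, u, PiLp.single_apply] using this
    · exact he
  have hfin : FiniteDimensional ℝ (Submodule.span ℝ (Set.range (basisFun (d := d)))) :=
    FiniteDimensional.span_of_finite ℝ (Set.finite_range _)
  have h := (LinearIndependent.of_comp (Submodule.subtype _)
    (v := fun s => (⟨F s, hspan s⟩ : Submodule.span ℝ (Set.range (basisFun (d := d))))) hind)
    |>.fintype_card_le_finrank.trans (finrank_range_le_card _)
  simp only [Fintype.card_sum, Fintype.card_fin, Fintype.card_unit, Sym2.card] at h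
  have := Nat.choose_succ_succ' (d + 1) 1
  norm_num at this
  rw [show d + 1 + 1 = d + 2 from rfl] at this
  omega

/-- The distances between midpoints of the sides of a regular simplex. -/
theorem dist_sum_sq {E : Type*} [NormedAddCommGroup E] [InnerProductSpace ℝ E] (a b c e : E) :
    ‖(a + b) - (c + e)‖ ^ 2 = ‖a - c‖ ^ 2 + ‖a - e‖ ^ 2 + ‖b - c‖ ^ 2 + ‖b - e‖ ^ 2 -
      ‖a - b‖ ^ 2 - ‖c - e‖ ^ 2 := by
  simp only [← real_inner_self_eq_norm_sq, inner_sub_left, inner_sub_right, inner_add_left,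
    inner_add_right, real_inner_comm b a, real_inner_comm c a, real_inner_comm e a,
    real_inner_comm c b, real_inner_comm e b, real_inner_comm e c]
  ring

/-- A regular simplex. -/
theorem exists_simplex (hd : 1 ≤ d) :
    ∃ u : Option (Fin d) → EuclideanSpace ℝ (Fin d), ∀ i j, i ≠ j → ‖u i - u j‖ ^ 2 = 2 := by
  classical
  set t : ℝ := (1 - Real.sqrt (d + 1)) / d with ht
  have hd0 : (0 : ℝ) < d := Nat.cast_pos.2 hd
  have hquad : (d : ℝ) * t ^ 2 - 2 * t - 1 = 0 := by
    have hs := Real.sq_sqrt (show (0 : ℝ) ≤ d + 1 by positivity)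
    rw [ht]
    field_simp
    linear_combination hs
  let w : EuclideanSpace ℝ (Fin d) := WithLp.toLp 2 fun _ => t
  have hw : ∀ k, ‖w - EuclideanSpace.single k (1 : ℝ)‖ ^ 2 = 2 := fun k => by
    rw [norm_sub_sq_real, ← real_inner_self_eq_norm_sq, inner_eq_sum, inner_eq_sum]
    simp [w, PiLp.single_apply]
    linear_combination hquad
  refine ⟨fun o => o.elim w fun k => EuclideanSpace.single k 1, ?_⟩
  rintro (_ | k) (_ | l) hne
  · exact absurd rfl hne
  · exact hw l
  · rw [norm_sub_rev]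
    exact hw k
  · have hkl : k ≠ l := fun h => hne (congrArg some h)
    show ‖EuclideanSpace.single k (1 : ℝ) - EuclideanSpace.single l 1‖ ^ 2 = 2
    rw [norm_sub_sq_real, inner_eq_sum]
    simp [PiLp.single_apply, hkl.symm]
    norm_num

/-- **The example.** -/
theorem exists_two_distance (hd : 1 ≤ d) :
    ∃ S : Finset (EuclideanSpace ℝ (Fin d)), #S = (d + 1).choose 2 ∧
      ∀ P ∈ S, ∀ Q ∈ S, P ≠ Q → ‖P - Q‖ ^ 2 = 2 ∨ ‖P - Q‖ ^ 2 = 4 := by
  classical
  obtain ⟨u, hu⟩ := exists_simplex hd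
  let T := (univ : Finset (Option (Fin d))).powersetCard 2
  let f := fun s : Finset (Option (Fin d)) => ∑ i ∈ s, u i
  have key : ∀ s ∈ T, ∀ s' ∈ T, s ≠ s' → ‖f s - f s'‖ ^ 2 = 2 ∨ ‖f s - f s'‖ ^ 2 = 4 := by
    intro s hs s' hs' hne
    obtain ⟨a, b, hab, rfl⟩ := card_eq_two.1 (mem_powersetCard.1 hs).2
    obtain ⟨c, e, hce, rfl⟩ := card_eq_two.1 (mem_powersetCard.1 hs').2
    simp only [f, sum_pair hab, sum_pair hce, dist_sum_sq, hu a b hab, hu c e hce]
    have z : ∀ i : Option (Fin d), ‖u i - u i‖ ^ 2 = 0 := fun i => by simp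
    by_cases h1 : a = c
    · subst h1
      have hbe : b ≠ e := fun h => hne (by rw [h])
      rw [z, hu a e hce, hu b a hab.symm, hu b e hbe]
      left; norm_num
    by_cases h2 : a = e
    · subst h2
      have hbc : b ≠ c := fun h => hne (by rw [h, pair_comm])
      rw [z, hu a c h1, hu b c hbc, hu b a hab.symm]
      left; norm_num
    by_cases h3 : b = c
    · subst h3
      rw [z, hu a b hab, hu a e h2, hu b e hce]
      left; norm_num
    by_cases h4 : b = e
    · subst h4
      rw [z, hu a c h1, hu a b hab, hu b c h3]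
      left; norm_num
    rw [hu a c h1, hu a e h2, hu b c h3, hu b e h4]
    right; norm_num
  refine ⟨T.image f, ?_, ?_⟩
  · rw [card_image_of_injOn, card_powersetCard, card_univ, Fintype.card_option, Fintype.card_fin]
    intro s hs s' hs' he
    by_contra hne
    rcases key s hs s' hs' hne with h | h <;> simp [he] at h
  · simp only [mem_image]
    rintro _ ⟨s, hs, rfl⟩ _ ⟨s', hs', rfl⟩ hne
    exact key s hs s' hs' fun h => hne (h ▸ rfl)

end FA.EquiangularLines

end
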