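import Mathlib.Analysis.InnerProductSpace.PiL2
import Mathlib.LinearAlgebra.Matrix.Charpoly.Coeff
import Mathlib.FieldTheory.Minpoly.IsIntegrallyClosed
import Mathlib.FieldTheory.Separable
import Mathlib.FieldTheory.Perfect
import Mathlib.RingTheory.Int.Basic
import Mathlib.RingTheory.RootsOfUnity.Basic
import Mathlib.Algebra.Field.ZMod
import Mathlib.Tactic

/-!
# Neumann's theorem

For more than `2 d` equiangular lines in dimension `d` the number `-1 / α` is a root of large
multiplicity of the characteristic polynomial of the sign matrix, hence an integer, and it is odd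
as that matrix is `J - I` modulo two.
-/

set_option autoImplicit false

noncomputable section

open Polynomial Matrix
open scoped RealInnerProductSpace

namespace FA.EquiangularLines

/-- A root of multiplicity more than half the degree is rational. -/
theorem exists_rat_of_multiplicity {q : ℚ[X]} (hq : q ≠ 0) {β : ℝ} {m : ℕ}
    (hm : q.natDegree < 2 * m) (hdvd : (X - C β) ^ m ∣ q.map (algebraMap ℚ ℝ)) :
    ∃ r : ℚ, (r : ℝ) = β := by
  have hm0 : m ≠ 0 := by omega
  have hint : IsIntegral ℚ β := by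
    refine IsAlgebraic.isIntegral ⟨q, hq, ?_⟩
    obtain ⟨c, hc⟩ := (dvd_pow_self (X - C β) hm0).trans hdvd
    rw [← Polynomial.eval_map_algebraMap, hc]
    simp
  set μ := minpoly ℚ β
  have hirr : Irreducible μ := minpoly.irreducible hint
  have hμ : (μ.map (algebraMap ℚ ℝ)).rootMultiplicity β ≤ 1 :=
    rootMultiplicity_le_one_of_separable
      ((PerfectField.separable_of_irreducible hirr).map) β
  have key : ∀ (m : ℕ) (q : ℚ[X]), q ≠ 0 → (X - C β) ^ m ∣ q.map (algebraMap ℚ ℝ) → μ ^ m ∣ q := by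
    intro m
    induction m with
    | zero => intro q _ _; simp
    | succ m ih =>
      intro q hq hd
      obtain ⟨q', rfl⟩ : μ ∣ q := by
        refine minpoly.dvd ℚ β ?_
        obtain ⟨c, hc⟩ := (dvd_pow_self (X - C β) m.succ_ne_zero).trans hd
        rw [← Polynomial.eval_map_algebraMap, hc]
        simp
      obtain ⟨hμ0, hq'⟩ := mul_ne_zero_iff.1 hq
      rw [pow_succ']
      refine mul_dvd_mul_left _ (ih q' hq' ?_)
      have hne : (μ * q').map (algebraMap ℚ ℝ) ≠ 0 := map_ne_zero hq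
      have h1 := (le_rootMultiplicity_iff hne).2 hd
      rw [Polynomial.map_mul] at hne h1
      rw [rootMultiplicity_mul hne] at h1
      exact (le_rootMultiplicity_iff (map_ne_zero hq')).1 (by omega)
  have hdeg := natDegree_le_of_dvd (key m q hq hdvd) hq
  rw [natDegree_pow] at hdeg
  have h1 : μ.natDegree = 1 := by
    have := minpoly.natDegree_pos hint
    change 0 < μ.natDegree at this
    by_contra h
    have : 2 * m ≤ m * μ.natDegree := by
      rw [mul_comm 2]
      exact Nat.mul_le_mul_left m (show 2 ≤ μ.natDegree by omega)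
    omega
  obtain ⟨r, hr⟩ := minpoly.natDegree_eq_one_iff.1 h1
  exact ⟨r, hr⟩

variable {ι : Type*} [Fintype ι] [DecidableEq ι] {d : ℕ}

/-- The characteristic polynomial modulo two. -/
theorem charpoly_complete (S : Matrix ι ι ℤ) (hdiag : ∀ i, S i i = 0)
    (hoff : ∀ i j, i ≠ j → (S i j : ZMod 2) = 1) [Nonempty ι] :
    ¬ (X ^ 2 : (ZMod 2)[X]) ∣ S.charpoly.map (Int.castRingHom (ZMod 2)) := by
  rw [← charpoly_map]
  have e : S.map (Int.castRingHom (ZMod 2)) =
      vecMulVec (fun _ => 1) (fun _ => 1) - scalar ι (1 : ZMod 2) := by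
    ext i j
    rcases eq_or_ne i j with rfl | h
    · simp [hdiag, vecMulVec_apply]
    · simp [hoff i j h, vecMulVec_apply, h]
  obtain ⟨n, hn⟩ : ∃ n, Fintype.card ι = n + 1 :=
    ⟨Fintype.card ι - 1, (Nat.sub_add_cancel Fintype.card_pos).symm⟩
  rw [e, charpoly_sub_scalar, charpoly_vecMulVec, hn, Nat.add_sub_cancel]
  simp only [dotProduct, mul_one, Finset.sum_const, Finset.card_univ, hn, nsmul_eq_mul,
    map_one, sub_comp, smul_comp, pow_comp, X_comp]
  intro hdvd
  rw [smul_eq_C_mul, pow_succ' ((X + 1 : (ZMod 2)[X])) n, ← sub_mul] at hdvd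
  have hcop : IsCoprime (X ^ 2 : (ZMod 2)[X]) ((X + 1) ^ n) :=
    (IsCoprime.pow (show IsCoprime (X : (ZMod 2)[X]) (X + 1) from ⟨-1, 1, by ring⟩))
  have h2 := natDegree_le_of_dvd (hcop.dvd_of_dvd_mul_right hdvd) ?_
  · rw [natDegree_X_pow, add_sub_assoc, ← map_one C, ← map_sub, natDegree_X_add_C] at h2
    omega
  · rw [add_sub_assoc, ← map_one C, ← map_sub]
    exact X_add_C_ne_zero _

/-- **Neumann's theorem.** -/
theorem neumann (x : ι → EuclideanSpace ℝ (Fin d)) {α : ℝ} (h1 : ∀ i, ‖x i‖ = 1)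
    (h2 : ∀ i j, i ≠ j → |⟪x i, x j⟫| = α) (hn : 2 * d < Fintype.card ι) :
    ∃ z : ℤ, Odd z ∧ (z : ℝ) * α = 1 := by
  classical
  have : Nonempty ι := Fintype.card_pos_iff.1 (by omega)
  have hd : 1 ≤ d := by
    refine Nat.one_le_iff_ne_zero.2 fun h => ?_
    subst h
    obtain ⟨i⟩ := this
    have := h1 i
    rw [Subsingleton.elim (x i) 0, norm_zero] at this
    exact zero_ne_one this
  have hG : ∀ i j, ∑ k, x i k * x j k = ⟪x i, x j⟫ := fun i j => by
    rw [PiLp.inner_apply]
    exact Finset.sum_congr rfl fun k _ => by simp [mul_comm]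
  let A : Matrix ι (Fin d) ℝ := Matrix.of fun i k => x i k
  have hA : ∀ i j, (A * Aᵀ) i j = ⟪x i, x j⟫ := fun i j => by
    rw [Matrix.mul_apply, ← hG]
    rfl
  have hle : d ≤ Fintype.card ι := by omega
  have hzero : ∀ c : ℝ, X ^ (Fintype.card ι - d) ∣ ((c • A) * Aᵀ).charpoly := fun c => by
    have h := charpoly_mul_comm' (c • A) Aᵀ
    rw [Fintype.card_fin] at h
    refine (mul_dvd_mul_iff_left (pow_ne_zero d X_ne_zero)).1 ?_
    rw [← pow_add, Nat.add_sub_cancel' hle, h]
    exact dvd_mul_right _ _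
  have hα : α ≠ 0 := by
    rintro rfl
    have e : (1 : ℝ) • A * Aᵀ = 1 := by
      ext i j
      rw [one_smul, hA]
      rcases eq_or_ne i j with rfl | h
      · rw [real_inner_self_eq_norm_sq, h1]
        simp
      · rw [one_apply_ne h, ← abs_eq_zero, h2 i j h]
    have h := hzero 1
    rw [e, charpoly_one] at h
    have := (X_dvd_iff.1 ((dvd_pow_self X (by omega)).trans h))
    rw [coeff_zero_eq_eval_zero] at this
    simp at this
  let S : Matrix ι ι ℤ := Matrix.of fun i j =>
    if i = j then 0 else if 0 ≤ ⟪x i, x j⟫ then 1 else -1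
  have hS : (α⁻¹ • A) * Aᵀ = S.map (Int.castRingHom ℝ) - scalar ι (-α⁻¹) := by
    ext i j
    rw [Matrix.smul_mul, Matrix.smul_apply, hA]
    rcases eq_or_ne i j with rfl | h
    · rw [real_inner_self_eq_norm_sq, h1]
      simp [S]
    · have := h2 i j h
      have hα0 : 0 < α := ((abs_nonneg _).trans_eq this).lt_of_ne hα.symm
      by_cases hp : 0 ≤ ⟪x i, x j⟫
      · rw [abs_of_nonneg hp] at this
        simp [S, h, this, hα, hα0.le]
      · rw [abs_of_neg (not_le.1 hp)] at this
        simp [S, h, neg_eq_iff_eq_neg.1 this, hα, hα0]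
  set m := Fintype.card ι - d with hm
  have hdvd : (X - C (-α⁻¹)) ^ m ∣ S.charpoly.map (Int.castRingHom ℝ) := by
    have h := hzero α⁻¹
    rw [hS, charpoly_sub_scalar, charpoly_map] at h
    obtain ⟨c, hc⟩ := h
    refine ⟨c.comp (X - C (-α⁻¹)), ?_⟩
    have := congrArg (fun q : ℝ[X] => q.comp (X - C (-α⁻¹))) hc
    simp only [mul_comp, pow_comp, X_comp, comp_assoc, add_comp, C_comp, sub_add_cancel,
      comp_X] at this
    exact this
  have hmonic := S.charpoly_monic
  have hmap : (S.charpoly.map (Int.castRingHom ℚ)).map (algebraMap ℚ ℝ) =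
      S.charpoly.map (Int.castRingHom ℝ) := by
    rw [Polynomial.map_map]
    congr 1
  obtain ⟨r, hr⟩ := exists_rat_of_multiplicity (m := m) (hmonic.map _).ne_zero (by
    rw [hmonic.natDegree_map, charpoly_natDegree_eq_dim]
    omega) (hmap ▸ hdvd)
  have hroot : IsIntegral ℤ r := by
    refine ⟨S.charpoly, hmonic, ?_⟩
    apply (Rat.cast_injective (α := ℝ))
    obtain ⟨c, hc⟩ := (dvd_pow_self (X - C (-α⁻¹)) (show m ≠ 0 by omega)).trans hdvd
    rw [← eq_ratCast (algebraMap ℚ ℝ), ← eq_ratCast (algebraMap ℚ ℝ), map_zero,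
      show algebraMap ℤ ℚ = Int.castRingHom ℚ from rfl, ← eval_map, ← Polynomial.eval₂_at_apply,
      ← eval_map, hmap, eq_ratCast, hr, hc]
    simp
  obtain ⟨z, hz⟩ := IsIntegrallyClosed.isIntegral_iff.1 hroot
  rw [eq_intCast] at hz
  have hzα : (z : ℝ) = -α⁻¹ := by rw [← hr, ← hz, Rat.cast_intCast]
  refine ⟨-z, ?_, by push_cast; rw [hzα, neg_neg, inv_mul_cancel₀ hα]⟩
  rw [Int.odd_iff]
  by_contra hev
  have hz2 : (z : ZMod 2) = 0 := by
    rw [ZMod.intCast_zmod_eq_zero_iff_dvd]
    omega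
  have hdvdZ : (X - C z) ^ 2 ∣ S.charpoly := by
    rw [← map_dvd_map (Int.castRingHom ℝ) Int.cast_injective ((monic_X_sub_C z).pow 2),
      Polynomial.map_pow, Polynomial.map_sub, map_X, map_C, eq_intCast, hzα]
    exact (pow_dvd_pow _ (show 2 ≤ m by omega)).trans hdvd
  refine charpoly_complete S (fun i => by simp [S]) (fun i j h => ?_) ?_
  · simp only [S, Matrix.of_apply, if_neg h]
    split_ifs <;> decide
  · have := Polynomial.map_dvd (Int.castRingHom (ZMod 2)) hdvdZ
    rwa [Polynomial.map_pow, Polynomial.map_sub, map_X, map_C, eq_intCast, hz2, map_zero,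
      sub_zero] at this

end FA.EquiangularLines

end
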